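/-
Fermat/Agent/Jac/AbelJacobi88/Membership.lean  (helper88)

Brick Q3a of the S25 programme, membership in THE cut from local dictionary data: a rigidified
line bundle `M₀` on `C × T` which, locally on `T`, is isomorphic to the pullback (along some
morphism `v : W ⟶ Spec A` over `Spec k`) of a dictionary sheaf on `C_A` whose line has the Euler
characteristic of the structure sheaf at every prime, lies in the Euler-characteristic cut
`ChiDict36.chiCut D hc0`.
-/
import Mathlib
import Fermat.Agent.Jac.ChiDict36

set_option autoImplicit false

open CategoryTheory CategoryTheory.Limits AlgebraicGeometry AlgebraicGeometry.RelPicard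
  NeronModelInfra GoodReductionJacobian TensorProduct

noncomputable section

namespace Fermat.Agent.Jac.AbelJacobi88

universe u

open scoped Fermat.Agent.Jac.BaseChange75
open BridgeCharts33 ChiDict36

variable {k : Type u} [Field k] {C : Scheme.{u}} {c : C ⟶ Spec (CommRingCat.of k)}
  {ε : SchemeHomOver (𝟙 (Spec (CommRingCat.of k))) c} {cc : CurveCharts c ε}
  (D : AffineDictionary cc) (hc0 : cc.chart0.FiniteProjOverLine)

/-- The Euler characteristic of the pullback of a dictionary sheaf along a morphism to an affine
test scheme is the Euler characteristic of its line at the image point. -/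
theorem chi_pullback_dict {T : Scheme.{u}} {t : T ⟶ Spec (CommRingCat.of k)}
    (A : Type u) [CommRing A] [Algebra k A] (v : SchemeHomOver t (specStr (k := k) A))
    (M : (XA c A).Modules) {L : cc.QCA A} (hC : D.Corr A M L) (y : T) :
    (chiTheory D hc0).chi t ((Scheme.Modules.pullback (baseChangeSnd c v)).obj M) y =
      L.chi (v.1 y) := by
  rw [chiTheory_chi_pullback D hc0 v M (D.isInvertible hC) y]
  exact chiTheory_chi_affine D hc0 A M hC (v.1 y)

/-- **Membership in the cut from local dictionary data.** -/
theorem chiCut_of_local_dict {T : Scheme.{u}} (t : T ⟶ Spec (CommRingCat.of k))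
    (M₀ : RigidifiedLineBundle c ε t)
    (h : ∀ x : T, ∃ (W : T.Opens) (A : Type u) (_ : CommRing A) (_ : Algebra k A)
      (v : SchemeHomOver (W.ι ≫ t) (specStr (k := k) A)) (M : (XA c A).Modules) (L : cc.QCA A),
      x ∈ W ∧ D.Corr A M L ∧ (∀ p : PrimeSpectrum A, L.chi p = chi0 cc) ∧
      Nonempty ((restrictOpen M₀ W).L ≅ (Scheme.Modules.pullback (baseChangeSnd c v)).obj M)) :
    (chiCut D hc0).P t M₀ := by
  choose W A instR instA v M L hxW hC hchi hiso using h
  refine chiCut_of_cover D hc0 t M₀ W ?_
    (fun x => (Scheme.Modules.pullback (baseChangeSnd c (v x))).obj (M x)) hiso ?_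
  · rw [eq_top_iff]
    intro x _
    exact TopologicalSpace.Opens.mem_iSup.mpr ⟨x, hxW x⟩
  · intro x y
    letI := instR x
    letI := instA x
    rw [chi_pullback_dict D hc0 (A x) (v x) (M x) (hC x) y]
    exact hchi x _

end Fermat.Agent.Jac.AbelJacobi88
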